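import Mathlib
import Fermat.Prelude.Def_CuspForm_HeckeAlgebra
import Fermat.Agent.S23.RationalSpan

/-!
# JT3 / S31, leaf [PET5]: the anemic Hecke algebra is reduced and separated by its eigencharacters
(prefix `red_`)

Abstract core (Mathlib only): `V` a finite-dimensional complex vector space with a positive
definite Hermitian form `c : InnerProductSpace.Core ℂ V`, `G` a set of pairwise commuting
endomorphisms which are symmetric for `c`.  Then the `ℤ`-algebra generated by `G` is separated by
the eigencharacters of its joint eigenvectors (`red_core_separates`) and is reduced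
(`red_core_isReduced`).

Instance: the Hecke algebra `heckeAlgebra N 2 S` of `S₂(Γ₀(N))` away from a set `S` containing the
primes dividing `N` (so it is generated by the `T_ℓ`, `ℓ ∤ N`), given a Petersson inner product for
which the `T_ℓ` are self-adjoint ([PET3], [PET4]): `red_separates_of`, `red_isReduced_of`.
-/

set_option autoImplicit false

namespace Fermat.Agent.JT3

open Module.End

section core

variable {V : Type*} [AddCommGroup V] [Module ℂ V]

/-- the elements of the algebra generated by `G` act by scalars on the joint eigenspaces of `G` -/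
theorem red_scalar_on_joint (G : Set (Module.End ℂ V)) (χ : G → ℂ) {s : Module.End ℂ V}
    (hs : s ∈ Algebra.adjoin ℤ G) :
    ∃ c : ℂ, ∀ v ∈ ⨅ i : G, eigenspace (i : Module.End ℂ V) (χ i), s v = c • v := by
  induction hs using Algebra.adjoin_induction with
  | mem T hT =>
      refine ⟨χ ⟨T, hT⟩, fun v hv => ?_⟩
      have hv' : v ∈ eigenspace T (χ ⟨T, hT⟩) := (Submodule.mem_iInf _).mp hv ⟨T, hT⟩
      exact mem_eigenspace_iff.mp hv'
  | algebraMap n =>
      refine ⟨(n : ℂ), fun v _ => ?_⟩
      rw [Algebra.algebraMap_eq_smul_one, LinearMap.smul_apply, Module.End.one_apply,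
        Int.cast_smul_eq_zsmul]
  | add s₁ s₂ _ _ h₁ h₂ =>
      obtain ⟨c₁, h₁⟩ := h₁
      obtain ⟨c₂, h₂⟩ := h₂
      exact ⟨c₁ + c₂, fun v hv => by rw [LinearMap.add_apply, h₁ v hv, h₂ v hv, add_smul]⟩
  | mul s₁ s₂ _ _ h₁ h₂ =>
      obtain ⟨c₁, h₁⟩ := h₁
      obtain ⟨c₂, h₂⟩ := h₂
      refine ⟨c₁ * c₂, fun v hv => ?_⟩
      rw [Module.End.mul_apply, h₂ v hv, map_smul, h₁ v hv, smul_smul, mul_comm]

/-- the eigencharacter of a joint eigenvector -/
theorem red_exists_char (A : Subalgebra ℤ (Module.End ℂ V)) {g : V} (hg : g ≠ 0)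
    (h : ∀ s ∈ A, ∃ c : ℂ, s g = c • g) :
    ∃ lam : A →+* ℂ, ∀ s : A, (s : Module.End ℂ V) g = lam s • g := by
  have hinj : Function.Injective fun c : ℂ => c • g := smul_left_injective ℂ hg
  choose f hf using fun s : A => h s.1 s.2
  refine ⟨{ toFun := f
            map_one' := ?_
            map_mul' := ?_
            map_zero' := ?_
            map_add' := ?_ }, hf⟩
  · apply hinj
    show f 1 • g = (1 : ℂ) • g
    rw [← hf 1, one_smul]
    rfl
  · intro s s'
    apply hinj
    show f (s * s') • g = (f s * f s') • g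
    rw [← hf (s * s'), Subalgebra.coe_mul, Module.End.mul_apply, hf s', map_smul, hf s, smul_smul,
      mul_comm]
  · apply hinj
    show f 0 • g = (0 : ℂ) • g
    rw [← hf 0, zero_smul]
    rfl
  · intro s s'
    apply hinj
    show f (s + s') • g = (f s + f s') • g
    rw [← hf (s + s'), Subalgebra.coe_add, LinearMap.add_apply, hf s, hf s', add_smul]

variable [FiniteDimensional ℂ V]

/-- **separation by eigencharacters** (abstract core) -/
theorem red_core_separates (c : InnerProductSpace.Core ℂ V) (G : Set (Module.End ℂ V))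
    (hsym : ∀ T ∈ G, ∀ x y : V, c.inner (T x) y = c.inner x (T y))
    (hcomm : ∀ T ∈ G, ∀ T' ∈ G, Commute T T') (t : Algebra.adjoin ℤ G)
    (h : ∀ (g : V) (lam : Algebra.adjoin ℤ G →+* ℂ), g ≠ 0 →
      (∀ s : Algebra.adjoin ℤ G, (s : Module.End ℂ V) g = lam s • g) → lam t = 0) : t = 0 := by
  let _ : NormedAddCommGroup V := @InnerProductSpace.Core.toNormedAddCommGroup ℂ V _ _ _ c
  let _ : InnerProductSpace ℂ V := InnerProductSpace.ofCore c.toCore
  have hT : ∀ i : G, LinearMap.IsSymmetric (i : Module.End ℂ V) := fun i x y => hsym i.1 i.2 x y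
  have hpair : Pairwise (Function.onFun Commute fun i : G => (i : Module.End ℂ V)) :=
    fun i j _ => hcomm i.1 i.2 j.1 j.2
  have htop := LinearMap.IsSymmetric.iSup_iInf_eq_top_of_commute hT hpair
  apply Subtype.ext
  apply LinearMap.ext
  intro v
  have hv : v ∈ ⨆ χ : G → ℂ, ⨅ i : G, eigenspace (i : Module.End ℂ V) (χ i) := by
    rw [htop]; exact Submodule.mem_top
  induction hv using Submodule.iSup_induction' with
  | mem χ w hw =>
      by_cases hw0 : w = 0
      · rw [hw0, map_zero, map_zero]
      · obtain ⟨lam, hlam⟩ := red_exists_char (Algebra.adjoin ℤ G) hw0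
          (fun s hs => by
            obtain ⟨c', hc'⟩ := red_scalar_on_joint G χ hs
            exact ⟨c', hc' w hw⟩)
        have := h w lam hw0 hlam
        rw [hlam t, this, zero_smul]
        rfl
  | zero => rw [map_zero, map_zero]
  | add x y _ _ hx hy => rw [map_add, hx, hy, map_add]

/-- **reducedness** (abstract core) -/
theorem red_core_isReduced (c : InnerProductSpace.Core ℂ V) (G : Set (Module.End ℂ V))
    (hsym : ∀ T ∈ G, ∀ x y : V, c.inner (T x) y = c.inner x (T y))
    (hcomm : ∀ T ∈ G, ∀ T' ∈ G, Commute T T') (t : Algebra.adjoin ℤ G) (ht : IsNilpotent t) :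
    t = 0 := by
  apply red_core_separates c G hsym hcomm t
  intro g lam _ _
  obtain ⟨n, hn⟩ := ht
  have : lam t ^ n = 0 := by rw [← map_pow, hn, map_zero]
  exact IsNilpotent.eq_zero ⟨n, this⟩

end core

/-! ### The instance: the Hecke algebra of `S₂(Γ₀(N))` away from `S ⊇ {q ∣ N}` -/

section hecke

open CuspForm CongruenceSubgroup

variable (N : ℕ) [NeZero N] (S : Set ℕ)

/-- a Petersson product: a positive definite Hermitian form for which the `T_ℓ`, `ℓ ∤ N`, are
self-adjoint -/
structure red_Petersson where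
  /-- the form -/
  core : InnerProductSpace.Core ℂ (CuspForm (Gamma0 N) 2)
  /-- self-adjointness of the Hecke operators away from the level -/
  adj : ∀ {ℓ : ℕ} (hℓ : ℓ.Prime) (hℓN : ¬ ℓ ∣ N) (f g : CuspForm (Gamma0 N) 2),
    core.inner (heckeTLin 2 hℓ hℓN f) g = core.inner f (heckeTLin 2 hℓ hℓN g)

variable {N S}

theorem red_generators_sym (P : red_Petersson N) (hNS : ∀ q : ℕ, q.Prime → q ∣ N → q ∈ S) :
    ∀ T ∈ heckeGenerators N 2 S, ∀ x y : CuspForm (Gamma0 N) 2,
      P.core.inner (T x) y = P.core.inner x (T y) := by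
  rintro T (⟨ℓ, hℓ, hℓN, -, rfl⟩ | ⟨q, hqN, hq, hqS, rfl⟩) x y
  · exact P.adj hℓ hℓN x y
  · exact absurd (hNS q hq hqN) hqS

/-- **EXPORT A**: the Hecke algebra away from `S ⊇ {q ∣ N}` is separated by the eigencharacters of
its eigenforms -/
theorem red_separates_of (P : red_Petersson N) (hNS : ∀ q : ℕ, q.Prime → q ∣ N → q ∈ S)
    (t : heckeAlgebra N 2 S)
    (h : ∀ (g : CuspForm (Gamma0 N) 2) (lam : heckeAlgebra N 2 S →+* ℂ), g ≠ 0 →
      (∀ s : heckeAlgebra N 2 S,
        (s : Module.End ℂ (CuspForm (Gamma0 N) 2)) g = lam s • g) → lam t = 0) : t = 0 := by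
  have := Fermat.Agent.S23.finiteDimensional_cuspForm N 2
  exact red_core_separates P.core (heckeGenerators N 2 S) (red_generators_sym P hNS)
    (fun _ hT _ hT' => commute_of_mem_heckeGenerators hT hT') t h

/-- the Hecke algebra away from `S ⊇ {q ∣ N}` is reduced -/
theorem red_isReduced_of (P : red_Petersson N) (hNS : ∀ q : ℕ, q.Prime → q ∣ N → q ∈ S) :
    IsReduced (heckeAlgebra N 2 S) := by
  have := Fermat.Agent.S23.finiteDimensional_cuspForm N 2
  refine ⟨fun t ht => ?_⟩
  exact red_core_isReduced P.core (heckeGenerators N 2 S) (red_generators_sym P hNS)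
    (fun _ hT _ hT' => commute_of_mem_heckeGenerators hT hT') t ht

end hecke

end Fermat.Agent.JT3
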