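import Mathlib

/-!
# S31 / [PET1] : integration over `Γ \ X` by weight functions

`G` acts measurably and measure-preservingly on `(X, μ)`; `Γ ≤ G` is a countable subgroup.
A *`Γ`-weight* is a measurable `w : X → ℝ≥0∞` with `∑' γ : Γ, w (γ • x) = 1` for every `x`
(the sum runs over the group `Γ` itself, so elements acting trivially are harmless).
For a `Γ`-invariant `φ` the integral `∫ w φ` does not depend on the weight; it plays the role of
`∫_{Γ \ X} φ`.  We prove independence of the weight, the subgroup ("trace") formula and the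
conjugation formula.
-/

namespace Fermat.Agent.JT3

open MeasureTheory ENNReal

section generic

variable {G X : Type*} [Group G] [MeasurableSpace X] [MulAction G X]

/-- `w` is a weight function for the subgroup `Γ`. -/
structure pet_IsWeight (Γ : Subgroup G) (w : X → ℝ≥0∞) : Prop where
  meas : Measurable w
  sum_eq : ∀ x : X, ∑' γ : Γ, w ((γ : G) • x) = 1

theorem pet_IsWeight.le_one {Γ : Subgroup G} {w : X → ℝ≥0∞} (hw : pet_IsWeight Γ w) (x : X) :
    w x ≤ 1 := by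
  have h := ENNReal.le_tsum (f := fun γ : Γ => w ((γ : G) • x)) 1
  simpa [hw.sum_eq x] using h

theorem pet_IsWeight.ne_top {Γ : Subgroup G} {w : X → ℝ≥0∞} (hw : pet_IsWeight Γ w) (x : X) :
    w x ≠ ⊤ :=
  ((hw.le_one x).trans_lt ENNReal.one_lt_top).ne

theorem pet_IsWeight.sum_inv_eq {Γ : Subgroup G} {w : X → ℝ≥0∞} (hw : pet_IsWeight Γ w) (x : X) :
    ∑' γ : Γ, w ((γ : G)⁻¹ • x) = 1 := by
  rw [← hw.sum_eq x]
  exact (Equiv.inv Γ).tsum_eq (fun γ : Γ => w ((γ : G) • x))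

variable [MeasurableConstSMul G X] (μ : Measure X) [SMulInvariantMeasure G X μ]

/-- Change of variables `x ↦ g • x` in a Lebesgue integral. -/
theorem pet_lintegral_smul (g : G) (f : X → ℝ≥0∞) :
    ∫⁻ x, f (g • x) ∂μ = ∫⁻ x, f x ∂μ :=
  (measurePreserving_smul g μ).lintegral_comp_emb (MeasurableEquiv.smul g).measurableEmbedding f

/-- **Independence of the weight**, nonnegative version. -/
theorem pet_lintegral_congr_weight {Γ : Subgroup G} [Countable Γ] {w w' : X → ℝ≥0∞}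
    (hw : pet_IsWeight Γ w) (hw' : pet_IsWeight Γ w') {φ : X → ℝ≥0∞} (hφm : Measurable φ)
    (hφ : ∀ γ ∈ Γ, ∀ x, φ (γ • x) = φ x) :
    ∫⁻ x, w x * φ x ∂μ = ∫⁻ x, w' x * φ x ∂μ := by
  have key : ∀ {w w' : X → ℝ≥0∞}, pet_IsWeight Γ w → pet_IsWeight Γ w' →
      ∫⁻ x, w x * φ x ∂μ = ∑' γ : Γ, ∫⁻ x, w x * φ x * w' ((γ : G) • x) ∂μ := by
    intro w w' hw hw'
    rw [← lintegral_tsum]
    · refine lintegral_congr fun x => ?_
      rw [ENNReal.tsum_mul_left, hw'.sum_eq x, mul_one]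
    · intro γ
      exact ((hw.meas.mul hφm).mul (hw'.meas.comp (measurable_const_smul (γ : G)))).aemeasurable
  rw [key hw hw', key hw' hw]
  rw [← (Equiv.inv Γ).tsum_eq (fun γ : Γ => ∫⁻ x, w' x * φ x * w ((γ : G) • x) ∂μ)]
  refine tsum_congr fun γ => ?_
  rw [← pet_lintegral_smul μ (γ : G) (fun x => w' x * φ x * w ((((Equiv.inv Γ) γ : Γ) : G) • x))]
  refine lintegral_congr fun x => ?_
  simp only [Equiv.inv_apply, Subgroup.coe_inv, inv_smul_smul]
  rw [hφ γ γ.2 x]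
  ring

/-- Unfolding: `∫ φ = ∑' γ, ∫ w φ` for `Γ`-invariant `φ ≥ 0`; in particular `∫ w φ = 0` forces
`∫ φ = 0`. -/
theorem pet_lintegral_eq_zero {Γ : Subgroup G} [Countable Γ] {w : X → ℝ≥0∞}
    (hw : pet_IsWeight Γ w) {φ : X → ℝ≥0∞} (hφm : Measurable φ)
    (hφ : ∀ γ ∈ Γ, ∀ x, φ (γ • x) = φ x) (h0 : ∫⁻ x, w x * φ x ∂μ = 0) :
    ∫⁻ x, φ x ∂μ = 0 := by
  have h1 : ∫⁻ x, φ x ∂μ = ∑' γ : Γ, ∫⁻ x, φ x * w ((γ : G) • x) ∂μ := by
    rw [← lintegral_tsum]
    · refine lintegral_congr fun x => ?_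
      rw [ENNReal.tsum_mul_left, hw.sum_eq x, mul_one]
    · intro γ
      exact (hφm.mul (hw.meas.comp (measurable_const_smul (γ : G)))).aemeasurable
  rw [h1]
  refine ENNReal.tsum_eq_zero.mpr fun γ => ?_
  rw [← h0, ← pet_lintegral_smul μ (γ : G) (fun x => w x * φ x)]
  refine lintegral_congr fun x => ?_
  rw [hφ γ γ.2 x, mul_comm]

/-- **Subgroup formula, weights.**  If `Γ = ⨆ᵢ δᵢ Γ'` (disjoint, `ι` finite), then
`x ↦ ∑ᵢ w (δᵢ • x)` is a `Γ'`-weight. -/
theorem pet_isWeight_sub {Γ Γ' : Subgroup G} {w : X → ℝ≥0∞} (hw : pet_IsWeight Γ w)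
    {ι : Type*} [Fintype ι] (δ : ι → G) (e : ι × Γ' ≃ Γ)
    (he : ∀ (i : ι) (γ' : Γ'), ((e (i, γ') : Γ) : G) = δ i * (γ' : G)) :
    pet_IsWeight Γ' (fun x => ∑ i, w (δ i • x)) where
  meas := Finset.measurable_sum _ fun i _ => hw.meas.comp (measurable_const_smul (δ i))
  sum_eq x := by
    have h1 : ∀ γ' : Γ', ∑ i, w (δ i • (γ' : G) • x) = ∑' i, w (δ i • (γ' : G) • x) :=
      fun γ' => (tsum_fintype _).symm
    simp_rw [h1]
    rw [ENNReal.tsum_comm,
      ← ENNReal.tsum_prod' (f := fun p : ι × Γ' => w (δ p.1 • (p.2 : G) • x)), ← hw.sum_eq x,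
      ← e.tsum_eq (fun γ : Γ => w ((γ : G) • x))]
    refine tsum_congr fun ⟨i, γ'⟩ => ?_
    simp only [he, mul_smul]

/-- **Subgroup formula, integrals** (nonnegative version). -/
theorem pet_lintegral_sub {w : X → ℝ≥0∞} {ι : Type*} [Fintype ι] (δ : ι → G) (hwm : Measurable w)
    {φ : X → ℝ≥0∞} (hφm : Measurable φ) :
    ∫⁻ x, (∑ i, w (δ i • x)) * φ x ∂μ = ∑ i, ∫⁻ x, w x * φ ((δ i)⁻¹ • x) ∂μ := by
  simp_rw [Finset.sum_mul]
  rw [lintegral_finsetSum]
  · refine Finset.sum_congr rfl fun i _ => ?_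
    rw [← pet_lintegral_smul μ (δ i) (fun x => w x * φ ((δ i)⁻¹ • x))]
    simp only [inv_smul_smul]
  · intro i _
    exact (hwm.comp (measurable_const_smul (δ i))).mul hφm

/-- **Conjugation formula, weights.** -/
theorem pet_isWeight_conj {Γ : Subgroup G} {w : X → ℝ≥0∞} (hw : pet_IsWeight Γ w) (α : G) :
    pet_IsWeight (Γ.map ((MulAut.conj α : G ≃* G) : G →* G)) (fun x => w (α⁻¹ • x)) where
  meas := hw.meas.comp (measurable_const_smul α⁻¹)
  sum_eq x := by
    rw [← hw.sum_eq (α⁻¹ • x), ← ((MulAut.conj α).subgroupMap Γ).toEquiv.tsum_eq]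
    refine tsum_congr fun γ => ?_
    have h : ((((MulAut.conj α).subgroupMap Γ).toEquiv γ :
        Γ.map ((MulAut.conj α : G ≃* G) : G →* G)) : G) = α * (γ : G) * α⁻¹ := rfl
    rw [h, mul_smul, mul_smul, inv_smul_smul]

/-! ### Complex-valued integrands -/

/-- The integral of `φ` against the weight `w` (plays the role of `∫_{Γ \ X} φ`). -/
noncomputable def pet_int (w : X → ℝ≥0∞) (φ : X → ℂ) : ℂ :=
  ∫ x, (((w x).toReal : ℝ) : ℂ) * φ x ∂μ

omit [MeasurableConstSMul G X] [SMulInvariantMeasure G X μ] in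
theorem pet_integrable_real {w : X → ℝ≥0∞} (hwm : Measurable w) (hmass : ∫⁻ x, w x ∂μ ≠ ⊤)
    {ψ : X → ℝ} (hψm : Measurable ψ) {C : ℝ} (hψb : ∀ x, |ψ x| ≤ C) :
    Integrable (fun x => (w x).toReal * ψ x) μ := by
  have h1 : Integrable (fun x => (w x).toReal) μ :=
    integrable_toReal_of_lintegral_ne_top hwm.aemeasurable hmass
  refine (h1.mul_const C).mono' (hwm.ennreal_toReal.mul hψm).aestronglyMeasurable ?_
  refine Filter.Eventually.of_forall fun x => ?_
  rw [Real.norm_eq_abs, abs_mul, abs_of_nonneg ENNReal.toReal_nonneg]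
  exact mul_le_mul_of_nonneg_left (hψb x) ENNReal.toReal_nonneg

/-- Independence of the weight, real bounded version. -/
theorem pet_integral_congr_weight_real {Γ : Subgroup G} [Countable Γ] {w w' : X → ℝ≥0∞}
    (hw : pet_IsWeight Γ w) (hw' : pet_IsWeight Γ w') (hmass : ∫⁻ x, w x ∂μ ≠ ⊤)
    {ψ : X → ℝ} (hψm : Measurable ψ) {C : ℝ} (hψb : ∀ x, |ψ x| ≤ C)
    (hψ : ∀ γ ∈ Γ, ∀ x, ψ (γ • x) = ψ x) :
    ∫ x, (w x).toReal * ψ x ∂μ = ∫ x, (w' x).toReal * ψ x ∂μ := by
  have hmass' : ∫⁻ x, w' x ∂μ ≠ ⊤ := by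
    have := pet_lintegral_congr_weight μ hw hw' (φ := fun _ => 1) measurable_const
      (fun _ _ _ => rfl)
    simp only [mul_one] at this
    rwa [← this]
  have e : ∀ {w : X → ℝ≥0∞}, pet_IsWeight Γ w → ∀ ψ : X → ℝ,
      (fun x => ENNReal.ofReal ((w x).toReal * ψ x)) = fun x => w x * ENNReal.ofReal (ψ x) := by
    intro w hw ψ
    funext x
    rw [ENNReal.ofReal_mul ENNReal.toReal_nonneg, ENNReal.ofReal_toReal (hw.ne_top x)]
  rw [integral_eq_lintegral_pos_part_sub_lintegral_neg_part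
      (pet_integrable_real μ hw.meas hmass hψm hψb),
    integral_eq_lintegral_pos_part_sub_lintegral_neg_part
      (pet_integrable_real μ hw'.meas hmass' hψm hψb)]
  have n1 : ∀ {w : X → ℝ≥0∞}, (fun x => ENNReal.ofReal (-((w x).toReal * ψ x))) =
      fun x => ENNReal.ofReal ((w x).toReal * (-ψ x)) := by
    intro w; funext x; rw [mul_neg]
  rw [n1, n1, e hw, e hw', e hw, e hw']
  rw [pet_lintegral_congr_weight μ hw hw' (φ := fun x => ENNReal.ofReal (ψ x))
      (ENNReal.measurable_ofReal.comp hψm) (fun γ hγ x => by rw [hψ γ hγ x]),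
    pet_lintegral_congr_weight μ hw hw' (φ := fun x => ENNReal.ofReal (-ψ x))
      (ENNReal.measurable_ofReal.comp hψm.neg) (fun γ hγ x => by rw [hψ γ hγ x])]

omit [MeasurableConstSMul G X] [SMulInvariantMeasure G X μ] in
theorem pet_integrable {w : X → ℝ≥0∞} (hwm : Measurable w) (hmass : ∫⁻ x, w x ∂μ ≠ ⊤)
    {φ : X → ℂ} (hφm : Measurable φ) {C : ℝ} (hφb : ∀ x, ‖φ x‖ ≤ C) :
    Integrable (fun x => (((w x).toReal : ℝ) : ℂ) * φ x) μ := by
  have h1 : Integrable (fun x => (w x).toReal) μ :=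
    integrable_toReal_of_lintegral_ne_top hwm.aemeasurable hmass
  refine (h1.mul_const C).mono'
    ((Complex.measurable_ofReal.comp hwm.ennreal_toReal).mul hφm).aestronglyMeasurable ?_
  refine Filter.Eventually.of_forall fun x => ?_
  rw [norm_mul, Complex.norm_real, Real.norm_eq_abs, abs_of_nonneg ENNReal.toReal_nonneg]
  exact mul_le_mul_of_nonneg_left (hφb x) ENNReal.toReal_nonneg

omit [MeasurableConstSMul G X] [SMulInvariantMeasure G X μ] in
/-- Real and imaginary parts of `pet_int`. -/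
theorem pet_int_eq {w : X → ℝ≥0∞} (hwm : Measurable w) (hmass : ∫⁻ x, w x ∂μ ≠ ⊤)
    {φ : X → ℂ} (hφm : Measurable φ) {C : ℝ} (hφb : ∀ x, ‖φ x‖ ≤ C) :
    pet_int μ w φ = ((∫ x, (w x).toReal * (φ x).re ∂μ : ℝ) : ℂ) +
      ((∫ x, (w x).toReal * (φ x).im ∂μ : ℝ) : ℂ) * Complex.I := by
  have hre : Integrable (fun x => (w x).toReal * (φ x).re) μ :=
    pet_integrable_real μ hwm hmass (Complex.measurable_re.comp hφm)
      (fun x => (Complex.abs_re_le_norm _).trans (hφb x))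
  have him : Integrable (fun x => (w x).toReal * (φ x).im) μ :=
    pet_integrable_real μ hwm hmass (Complex.measurable_im.comp hφm)
      (fun x => (Complex.abs_im_le_norm _).trans (hφb x))
  unfold pet_int
  rw [← integral_complex_ofReal, ← integral_complex_ofReal, ← integral_mul_const, ← integral_add]
  · refine integral_congr_ae (Filter.Eventually.of_forall fun x => ?_)
    apply Complex.ext <;> simp
  · exact hre.ofReal
  · exact him.ofReal.mul_const _

/-- **Independence of the weight**, complex bounded version. -/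
theorem pet_int_congr_weight {Γ : Subgroup G} [Countable Γ] {w w' : X → ℝ≥0∞}
    (hw : pet_IsWeight Γ w) (hw' : pet_IsWeight Γ w') (hmass : ∫⁻ x, w x ∂μ ≠ ⊤)
    {φ : X → ℂ} (hφm : Measurable φ) {C : ℝ} (hφb : ∀ x, ‖φ x‖ ≤ C)
    (hφ : ∀ γ ∈ Γ, ∀ x, φ (γ • x) = φ x) :
    pet_int μ w φ = pet_int μ w' φ := by
  have hmass' : ∫⁻ x, w' x ∂μ ≠ ⊤ := by
    have := pet_lintegral_congr_weight μ hw hw' (φ := fun _ => 1) measurable_const
      (fun _ _ _ => rfl)
    simp only [mul_one] at this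
    rwa [← this]
  have hre := pet_integral_congr_weight_real μ hw hw' hmass (ψ := fun x => (φ x).re)
    (Complex.measurable_re.comp hφm)
    (fun x => (Complex.abs_re_le_norm _).trans (hφb x)) (fun γ hγ x => by rw [hφ γ hγ x])
  have him := pet_integral_congr_weight_real μ hw hw' hmass (ψ := fun x => (φ x).im)
    (Complex.measurable_im.comp hφm)
    (fun x => (Complex.abs_im_le_norm _).trans (hφb x)) (fun γ hγ x => by rw [hφ γ hγ x])
  rw [pet_int_eq μ hw.meas hmass hφm hφb, pet_int_eq μ hw'.meas hmass' hφm hφb, hre, him]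

/-- The mass of a weight does not depend on the weight. -/
theorem pet_mass_congr {Γ : Subgroup G} [Countable Γ] {w w' : X → ℝ≥0∞}
    (hw : pet_IsWeight Γ w) (hw' : pet_IsWeight Γ w') :
    ∫⁻ x, w x ∂μ = ∫⁻ x, w' x ∂μ := by
  have := pet_lintegral_congr_weight μ hw hw' (φ := fun _ => 1) measurable_const
    (fun _ _ _ => rfl)
  simpa only [mul_one] using this

/-- Change of variables `x ↦ g • x` in `pet_int`. -/
theorem pet_int_smul (g : G) (w : X → ℝ≥0∞) (φ : X → ℂ) :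
    pet_int μ (fun x => w (g • x)) (fun x => φ (g • x)) = pet_int μ w φ := by
  unfold pet_int
  exact (measurePreserving_smul g μ).integral_comp (MeasurableEquiv.smul g).measurableEmbedding
    (fun x => (((w x).toReal : ℝ) : ℂ) * φ x)

/-- **Conjugation formula, integrals.** -/
theorem pet_int_conj (α : G) (w : X → ℝ≥0∞) (φ : X → ℂ) :
    pet_int μ (fun x => w (α⁻¹ • x)) (fun x => φ (α⁻¹ • x)) = pet_int μ w φ :=
  pet_int_smul μ α⁻¹ w φ

/-- Mass of a translated weight. -/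
theorem pet_mass_smul (g : G) (w : X → ℝ≥0∞) :
    ∫⁻ x, w (g • x) ∂μ = ∫⁻ x, w x ∂μ := pet_lintegral_smul μ g w

/-- **Subgroup formula, integrals** (complex bounded version). -/
theorem pet_int_sub {w : X → ℝ≥0∞} {ι : Type*} [Fintype ι] (δ : ι → G) (hwm : Measurable w)
    (hw1 : ∀ x, w x ≠ ⊤) (hmass : ∫⁻ x, w x ∂μ ≠ ⊤)
    {φ : X → ℂ} (hφm : Measurable φ) {C : ℝ} (hφb : ∀ x, ‖φ x‖ ≤ C) :
    pet_int μ (fun x => ∑ i, w (δ i • x)) φ = ∑ i, pet_int μ w (fun x => φ ((δ i)⁻¹ • x)) := by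
  have h1 : ∀ i, pet_int μ w (fun x => φ ((δ i)⁻¹ • x)) =
      pet_int μ (fun x => w (δ i • x)) φ := by
    intro i
    rw [← pet_int_smul μ (δ i) w (fun x => φ ((δ i)⁻¹ • x))]
    simp only [inv_smul_smul]
  simp_rw [h1]
  unfold pet_int
  rw [← integral_finsetSum]
  · refine integral_congr_ae (Filter.Eventually.of_forall fun x => ?_)
    simp only
    rw [ENNReal.toReal_sum (fun i _ => hw1 _), Complex.ofReal_sum, Finset.sum_mul]
  · intro i _
    refine pet_integrable μ (w := fun x => w (δ i • x))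
      (hwm.comp (measurable_const_smul (δ i))) ?_ hφm hφb
    rw [pet_mass_smul μ (δ i) w]
    exact hmass

end generic

end Fermat.Agent.JT3
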